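/-
Program C (S55), package C3, helper76: ramification index and residue degree of a finite
extension `L/F` of embedded local fields, in the numerical form used for `LeafInvRes`:
there are `e, f ≥ 1` with `e f = [L : F]`, `unifNrm F = unifNrm L ^ e` and `#k_L = #k_F ^ f`.
(From helper39's fundamental identity and the embedding of residue fields.)
-/
import Fermat.Agent.S55.H39.FundId
import Fermat.Agent.S55.H66.LocalBridge

set_option autoImplicit false

noncomputable section

namespace Fermat.Agent.S55.H76

open IntermediateField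
open Fermat.Agent.S55.H66

variable (q : ℕ) [Fact q.Prime]

/-- `e f = n` with the normalisations of `unifNrm` and `resCard`. -/
def EFStatement : Prop :=
  ∀ (F : Type) [Field F] [Algebra ℚ_[q] F] [Algebra F (PadicAlgCl q)]
    [IsScalarTower ℚ_[q] F (PadicAlgCl q)] [FiniteDimensional ℚ_[q] F]
    (L : IntermediateField F (PadicAlgCl q)) [FiniteDimensional F L],
    ∃ e f : ℕ, 0 < e ∧ 0 < f ∧ e * f = Module.finrank F L ∧
      unifNrm q F = unifNrm q L ^ e ∧ resCard q L = resCard q F ^ f

section Res

variable {F : Type} [Field F] [Algebra F (PadicAlgCl q)]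
variable (L : IntermediateField F (PadicAlgCl q))

/-- The inclusion of valuation rings `𝒪_F → 𝒪_L`. -/
def intIncl : intRing q F →+* intRing q L where
  toFun x := ⟨algebraMap F L x, (H39.mem_intRing_iff q).mpr (by
    rw [H39.nrm_algebraMap]
    exact (H39.mem_intRing_iff q).mp x.2)⟩
  map_one' := Subtype.ext (map_one _)
  map_mul' x y := Subtype.ext (map_mul _ _ _)
  map_zero' := Subtype.ext (map_zero _)
  map_add' x y := Subtype.ext (map_add _ _ _)

theorem intIncl_coe (x : intRing q F) : ((intIncl q L x : intRing q L) : L) = algebraMap F L x :=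
  rfl

instance isLocalHom_intIncl : IsLocalHom (intIncl q L) :=
  ⟨fun x hx => by
    rw [H39.isUnit_intRing_iff] at hx ⊢
    rw [intIncl_coe, H39.nrm_algebraMap] at hx
    exact hx⟩

/-- The cardinality of the residue field of `L` is a power of that of `F`. -/
theorem resCard_eq_pow (hL : Finite (IsLocalRing.ResidueField (intRing q L))) :
    ∃ f : ℕ, resCard q L = resCard q F ^ f := by
  let _ : Algebra (IsLocalRing.ResidueField (intRing q F))
      (IsLocalRing.ResidueField (intRing q L)) :=
    (IsLocalRing.ResidueField.map (intIncl q L)).toAlgebra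
  exact ⟨Module.finrank (IsLocalRing.ResidueField (intRing q F))
    (IsLocalRing.ResidueField (intRing q L)), Module.natCard_eq_pow_finrank⟩

end Res

/-- The numerical `e f = n` statement. -/
theorem efStatement : EFStatement q := by
  intro F _ _ _ _ _ L _
  obtain ⟨πF, hF0, hF1, hFg⟩ := leafUnif q F
  obtain ⟨πL, hL0, hL1, hLg⟩ := leafUnif q L
  obtain ⟨a, ha, hnorm, hcard⟩ := H39.fundIdStatement F L πF πL hF0 hF1 hFg hL0 hL1 hLg
  have hfinF : Finite (IsLocalRing.ResidueField (intRing q F)) := leafResFinite q F
  have hfinL : Finite (IsLocalRing.ResidueField (intRing q L)) := leafResFinite q L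
  obtain ⟨f, hf⟩ := resCard_eq_pow q L hfinL
  have h2F : 2 ≤ resCard q F := Finite.one_lt_card
  have h2L : 2 ≤ resCard q L := Finite.one_lt_card
  have hf0 : 0 < f := by
    rcases Nat.eq_zero_or_pos f with h | h
    · rw [h, pow_zero] at hf
      omega
    · exact h
  refine ⟨a, f, ha, hf0, ?_, ?_, hf⟩
  · rw [hf, ← pow_mul] at hcard
    have := Nat.pow_right_injective h2F hcard
    rw [mul_comm]
    exact this
  · rw [unifNrm_eq q F πF hF0 hF1 hFg, unifNrm_eq q L πL hL0 hL1 hLg]
    exact hnorm

end Fermat.Agent.S55.H76
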