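/-
Program C (S55), package C3, helper76: the general functoriality map
`H²(Gal(N/F), Nˣ) ⟶ H²(Gal(M/F'), Mˣ)` for `F ⊆ F'`, `N ⊆ M` inside `Ω = PadicAlgCl q`
(`N/F` normal), which contains inflation (`F' = F`) and restriction (`M = N`) as special cases,
with its composition law.
-/
import Fermat.Agent.S55.H66.LocalDefs

set_option autoImplicit false

noncomputable section

namespace Fermat.Agent.S55.H76

open CategoryTheory groupCohomology Rep IntermediateField
open Fermat.Agent.S55.H66

variable {q : ℕ} [Fact q.Prime]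

section Gadget

variable {F F' F'' : Type} [Field F] [Field F'] [Field F'']
  [Algebra F (PadicAlgCl q)] [Algebra F' (PadicAlgCl q)] [Algebra F'' (PadicAlgCl q)]

/-- `(F, N) ≤ (F', M)`: the image of `F` in `Ω` lies in the image of `F'`, and `N ⊆ M`. -/
def PairLE (N : IntermediateField F (PadicAlgCl q)) (M : IntermediateField F' (PadicAlgCl q)) :
    Prop :=
  (∀ r : F, ∃ s : F', algebraMap F' (PadicAlgCl q) s = algebraMap F (PadicAlgCl q) r) ∧
    ∀ z : PadicAlgCl q, z ∈ N → z ∈ M

variable {N : IntermediateField F (PadicAlgCl q)} {M : IntermediateField F' (PadicAlgCl q)}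
  {P : IntermediateField F'' (PadicAlgCl q)}

theorem PairLE.trans (h₁ : PairLE N M) (h₂ : PairLE M P) : PairLE N P := by
  refine ⟨fun r => ?_, fun z hz => h₂.2 z (h₁.2 z hz)⟩
  obtain ⟨s, hs⟩ := h₁.1 r
  obtain ⟨t, ht⟩ := h₂.1 s
  exact ⟨t, ht.trans hs⟩

/-- The inclusion `N → M` as a ring homomorphism. -/
def pairIncl (h : PairLE N M) : N →+* M where
  toFun z := ⟨z.1, h.2 z.1 z.2⟩
  map_one' := rfl
  map_mul' _ _ := rfl
  map_zero' := rfl
  map_add' _ _ := rfl

@[simp] theorem pairIncl_coe (h : PairLE N M) (z : N) :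
    ((pairIncl h z : M) : PadicAlgCl q) = z := rfl

/-- An automorphism of `M/F'` gives an `F`-embedding of `N` in `Ω`. -/
def pairEmb (h : PairLE N M) (σ : M ≃ₐ[F'] M) : N →ₐ[F] PadicAlgCl q where
  toFun z := ((σ (pairIncl h z) : M) : PadicAlgCl q)
  map_one' := by simp
  map_mul' x y := by simp
  map_zero' := by simp
  map_add' x y := by simp
  commutes' r := by
    obtain ⟨s, hs⟩ := h.1 r
    have : pairIncl h (algebraMap F N r) = algebraMap F' M s := Subtype.ext hs.symm
    rw [this, σ.commutes]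
    exact hs

theorem pairEmb_mem [Normal F N] (h : PairLE N M) (σ : M ≃ₐ[F'] M) (z : N) :
    ((σ (pairIncl h z) : M) : PadicAlgCl q) ∈ N := by
  have h1 : pairEmb h σ z ∈ (pairEmb h σ).fieldRange := ⟨z, rfl⟩
  rw [AlgHom.fieldRange_of_normal] at h1
  exact h1

/-- Restriction of automorphisms `Gal(M/F') → Gal(N/F)`. -/
def galRes [Normal F N] (h : PairLE N M) : (M ≃ₐ[F'] M) →* (N ≃ₐ[F] N) where
  toFun σ :=
    { toFun := fun z => ⟨((σ (pairIncl h z) : M) : PadicAlgCl q), pairEmb_mem h σ z⟩
      invFun := fun z => ⟨((σ.symm (pairIncl h z) : M) : PadicAlgCl q), pairEmb_mem h σ.symm z⟩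
      left_inv := fun z => by
        apply Subtype.ext
        have : pairIncl h ⟨((σ (pairIncl h z) : M) : PadicAlgCl q), pairEmb_mem h σ z⟩ =
            σ (pairIncl h z) := Subtype.ext rfl
        simp [this]
      right_inv := fun z => by
        apply Subtype.ext
        have : pairIncl h ⟨((σ.symm (pairIncl h z) : M) : PadicAlgCl q),
            pairEmb_mem h σ.symm z⟩ = σ.symm (pairIncl h z) := Subtype.ext rfl
        simp [this]
      map_mul' := fun x y => Subtype.ext (map_mul (pairEmb h σ) x y)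
      map_add' := fun x y => Subtype.ext (map_add (pairEmb h σ) x y)
      commutes' := fun r => Subtype.ext ((pairEmb h σ).commutes r) }
  map_one' := by
    ext z
    rfl
  map_mul' σ τ := by
    ext z
    rfl

theorem galRes_apply [Normal F N] (h : PairLE N M) (σ : M ≃ₐ[F'] M) (z : N) :
    ((galRes h σ z : N) : PadicAlgCl q) = (σ (pairIncl h z) : M) := rfl

/-- The inclusion `Nˣ → Mˣ`, written additively. -/
def pairUnits (h : PairLE N M) : Additive Nˣ →ₗ[ℤ] Additive Mˣ :=
  (MonoidHom.toAdditive (Units.map ((pairIncl h : N →+* M) : N →* M))).toIntLinearMap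

/-- The coefficient map of `pairMap`. -/
def pairRep [Normal F N] (h : PairLE N M) :
    Rep.res (galRes h) (Rep.ofAlgebraAutOnUnits F N) ⟶ Rep.ofAlgebraAutOnUnits F' M :=
  Rep.ofHom ⟨pairUnits h, fun σ => by
    ext x
    exact galRes_apply h σ ((Additive.toMul x : Nˣ) : N)⟩

/-- The map `H²(Gal(N/F), Nˣ) ⟶ H²(Gal(M/F'), Mˣ)`. -/
def pairMap [Normal F N] (h : PairLE N M) :
    groupCohomology.H2 (Rep.ofAlgebraAutOnUnits F N) ⟶
      groupCohomology.H2 (Rep.ofAlgebraAutOnUnits F' M) :=
  groupCohomology.map (galRes h) (pairRep h) 2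

theorem pairMap_comp [Normal F N] [Normal F' M] (h₁ : PairLE N M) (h₂ : PairLE M P) :
    pairMap h₁ ≫ pairMap h₂ = pairMap (h₁.trans h₂) := by
  unfold pairMap
  rw [← groupCohomology.map_comp]
  refine groupCohomology.map_congr ?_ ?_ 2
  · ext σ z
    rfl
  · rfl

theorem pairMap_comp_apply [Normal F N] [Normal F' M] (h₁ : PairLE N M) (h₂ : PairLE M P)
    (x : groupCohomology.H2 (Rep.ofAlgebraAutOnUnits F N)) :
    (pairMap h₂).hom ((pairMap h₁).hom x) = (pairMap (h₁.trans h₂)).hom x := by
  rw [← pairMap_comp h₁ h₂]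
  rfl

end Gadget

section Special

variable {F : Type} [Field F] [Algebra F (PadicAlgCl q)]
variable {L E : IntermediateField F (PadicAlgCl q)}

/-- The pair inclusion behind inflation. -/
theorem pairLE_of_le (h : L ≤ E) : PairLE L E :=
  ⟨fun r => ⟨r, rfl⟩, fun _ hz => h hz⟩

/-- The pair inclusion behind restriction. -/
theorem pairLE_up (h : L ≤ E) : PairLE E (extendScalars h) :=
  ⟨fun r => ⟨algebraMap F L r, rfl⟩, fun _ hz => hz⟩

theorem inflH2_eq_pairMap [Normal F L] (h : L ≤ E) : inflH2 h = pairMap (pairLE_of_le h) := by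
  unfold inflH2 pairMap
  refine groupCohomology.map_congr ?_ ?_ 2
  · ext σ x
    rw [resHom_apply, galRes_apply]
    rfl
  · rfl

theorem resH2_eq_pairMap [Normal F E] (h : L ≤ E) : resH2 h = pairMap (pairLE_up h) := by
  unfold resH2 pairMap
  refine groupCohomology.map_congr ?_ ?_ 2
  · ext σ x
    rw [upHom_apply_coe, galRes_apply]
    have : (upEquiv h).symm x = pairIncl (pairLE_up h) x :=
      Subtype.ext (upEquiv_symm_apply_coe h x)
    rw [this]
  · ext x
    apply Additive.toMul.injective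
    apply Units.ext
    apply Subtype.ext
    exact upEquiv_symm_apply_coe h ((Additive.toMul x : Eˣ) : E)

end Special

end Fermat.Agent.S55.H76
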