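/-
Program C (S55), package C3, helper76: compatibility of the Frobenius automorphisms of the
unramified extensions `F_n/F` and `L_{n'}/L` (`F ⊆ L`, `#k_L = #k_F ^ f`, `f n' = n`) under
restriction of automorphisms: `φ_L|_{F_n} = φ_F ^ f`, and injectivity of the restriction.
-/
import Fermat.Agent.S55.H76.PairMap
import Fermat.Agent.S55.H66.InvSpec
import Fermat.Agent.S55.H35.H2Unram

set_option autoImplicit false

noncomputable section

namespace Fermat.Agent.S55.H76

open IntermediateField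
open Fermat.Agent.S55.H66

variable {q : ℕ} [Fact q.Prime]

/-- `‖a ^ k - b ^ k‖ ≤ ‖a - b‖` for integral `a`, `b`. -/
theorem norm_pow_sub_pow_le (a b : PadicAlgCl q) (ha : ‖a‖ ≤ 1) (hb : ‖b‖ ≤ 1) (k : ℕ) :
    ‖a ^ k - b ^ k‖ ≤ ‖a - b‖ := by
  induction k with
  | zero => simp
  | succ k ih =>
    have h : a ^ (k + 1) - b ^ (k + 1) = a ^ k * (a - b) + (a ^ k - b ^ k) * b := by ring
    rw [h]
    refine (IsUltrametricDist.norm_add_le_max _ _).trans (max_le ?_ ?_)
    · rw [norm_mul, norm_pow]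
      exact mul_le_of_le_one_left (norm_nonneg _) (pow_le_one₀ (norm_nonneg _) ha)
    · rw [norm_mul]
      exact (mul_le_of_le_one_right (norm_nonneg _) hb).trans ih

theorem norm_sub_lt_one_trans (a b c : PadicAlgCl q) (h1 : ‖a - b‖ < 1) (h2 : ‖b - c‖ < 1) :
    ‖a - c‖ < 1 := by
  have h : a - c = (a - b) + (b - c) := by ring
  rw [h]
  exact (IsUltrametricDist.norm_add_le_max _ _).trans_lt (max_lt h1 h2)

section Frob

variable {F : Type} [Field F] [Algebra ℚ_[q] F] [Algebra F (PadicAlgCl q)]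
  [IsScalarTower ℚ_[q] F (PadicAlgCl q)]

omit [Algebra ℚ_[q] F] [IsScalarTower ℚ_[q] F (PadicAlgCl q)] in
theorem nrm_coe (N : IntermediateField F (PadicAlgCl q)) (x : N) :
    nrm q x = ‖(x : PadicAlgCl q)‖ := rfl

/-- Iterating the Frobenius congruence. -/
theorem isFrob_pow (N : IntermediateField F (PadicAlgCl q)) (φ : N ≃ₐ[F] N)
    (hφ : IsFrob q N φ) (k : ℕ) (x : N) (hx : nrm q x ≤ 1) :
    ‖(((φ ^ k) x : N) : PadicAlgCl q) - (x : PadicAlgCl q) ^ (resCard q F ^ k)‖ < 1 := by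
  induction k with
  | zero => simp
  | succ k ih =>
    have hy : nrm q ((φ ^ k) x) ≤ 1 := by rw [H35.nrm_algEquiv]; exact hx
    have h1 : ‖((φ ((φ ^ k) x) : N) : PadicAlgCl q) -
        (((φ ^ k) x : N) : PadicAlgCl q) ^ resCard q F‖ < 1 := hφ ((φ ^ k) x) hy
    have hxk : ‖(x : PadicAlgCl q) ^ (resCard q F ^ k)‖ ≤ 1 := by
      rw [norm_pow]
      exact pow_le_one₀ (norm_nonneg _) hx
    have h2 := norm_pow_sub_pow_le (((φ ^ k) x : N) : PadicAlgCl q)
      ((x : PadicAlgCl q) ^ (resCard q F ^ k)) hy hxk (resCard q F)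
    have h3 : ((φ ^ (k + 1)) x : N) = φ ((φ ^ k) x) := by
      rw [pow_succ']
      rfl
    rw [h3, pow_succ, pow_mul]
    exact norm_sub_lt_one_trans _ _ _ h1 (h2.trans_lt ih)

/-- Two automorphisms that agree modulo the maximal ideal are equal, when the Frobenius is
unique. -/
theorem algEquiv_eq_of_congr (N : IntermediateField F (PadicAlgCl q)) (φ : N ≃ₐ[F] N)
    (hφ : IsFrob q N φ) (huniq : ∀ ψ : N ≃ₐ[F] N, IsFrob q N ψ → ψ = φ)
    (ψ ψ' : N ≃ₐ[F] N)
    (h : ∀ x : N, nrm q x ≤ 1 → ‖((ψ x : N) : PadicAlgCl q) - ((ψ' x : N) : PadicAlgCl q)‖ < 1) :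
    ψ = ψ' := by
  have hχ : IsFrob q N (ψ * ψ'⁻¹ * φ) := by
    intro x hx
    have hy : nrm q (ψ'⁻¹ (φ x)) ≤ 1 := by
      rw [H35.nrm_algEquiv, H35.nrm_algEquiv]; exact hx
    have h1 := h _ hy
    have h2 : ψ' (ψ'⁻¹ (φ x)) = φ x := ψ'.apply_symm_apply (φ x)
    rw [h2] at h1
    exact norm_sub_lt_one_trans _ _ _ h1 (hφ x hx)
  have h3 := huniq _ hχ
  have h4 : ψ * ψ'⁻¹ = 1 := by
    have := mul_right_cancel (b := φ) (a := ψ * ψ'⁻¹) (c := 1) (by rw [h3, one_mul])
    exact this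
  exact mul_inv_eq_one.mp h4

end Frob

section Pair

variable {F : Type} [Field F] [Algebra ℚ_[q] F] [Algebra F (PadicAlgCl q)]
  [IsScalarTower ℚ_[q] F (PadicAlgCl q)]
variable (L : IntermediateField F (PadicAlgCl q))

omit [Algebra ℚ_[q] F] [IsScalarTower ℚ_[q] F (PadicAlgCl q)] in
/-- `F_n ⊆ L_{n'}` when `#k_L ^ n' = #k_F ^ n`. -/
theorem unramExt_pairLE {n n' : ℕ} (hQ : resCard q L ^ n' = resCard q F ^ n) :
    PairLE (unramExt q F n) (unramExt q L n') := by
  refine ⟨fun r => ⟨algebraMap F L r, rfl⟩, ?_⟩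
  have hS : ∀ ζ : PadicAlgCl q, ζ ^ (resCard q F ^ n - 1) = 1 → ζ ∈ unramExt q L n' := by
    intro ζ hζ
    refine IntermediateField.subset_adjoin L _ ?_
    show ζ ^ (resCard q L ^ n' - 1) = 1
    rw [hQ]
    exact hζ
  have hle : unramExt q F n ≤ (unramExt q L n').restrictScalars F :=
    IntermediateField.adjoin_le_iff.mpr (fun ζ hζ => hS ζ hζ)
  exact fun z hz => hle hz

omit [Algebra ℚ_[q] F] [IsScalarTower ℚ_[q] F (PadicAlgCl q)] in
/-- Restriction `Gal(L_{n'}/L) → Gal(F_n/F)` is injective. -/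
theorem galRes_unram_injective {n n' : ℕ} (hQ : resCard q L ^ n' = resCard q F ^ n)
    [Normal F (unramExt q F n)] :
    Function.Injective (galRes (unramExt_pairLE L hQ)) := by
  intro σ τ hστ
  have key : (σ : unramExt q L n' →ₐ[L] unramExt q L n') = τ := by
    refine IntermediateField.algHom_ext_of_eq_adjoin L
      (rfl : unramExt q L n' = IntermediateField.adjoin L _) ?_
    intro ζ hζ
    have hζ' : ζ ^ (resCard q F ^ n - 1) = 1 := by
      rw [← hQ]
      exact hζ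
    have hζF : ζ ∈ unramExt q F n := IntermediateField.subset_adjoin F _ hζ'
    have h1 : ((galRes (unramExt_pairLE L hQ) σ ⟨ζ, hζF⟩ : unramExt q F n) : PadicAlgCl q) =
        ((galRes (unramExt_pairLE L hQ) τ ⟨ζ, hζF⟩ : unramExt q F n) : PadicAlgCl q) := by
      rw [hστ]
    rw [galRes_apply, galRes_apply] at h1
    apply Subtype.ext
    exact h1
  exact AlgEquiv.ext (fun x => congrArg (fun f : unramExt q L n' →ₐ[L] unramExt q L n' => f x) key)

/-- The Frobenius of `L_{n'}/L` restricts to the `f`-th power of the Frobenius of `F_n/F`. -/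
theorem galRes_frob {n n' f : ℕ} (hQ : resCard q L ^ n' = resCard q F ^ n)
    (hf : resCard q L = resCard q F ^ f) [Normal F (unramExt q F n)]
    (φF : unramExt q F n ≃ₐ[F] unramExt q F n) (hφF : IsFrob q (unramExt q F n) φF)
    (huniq : ∀ ψ : unramExt q F n ≃ₐ[F] unramExt q F n, IsFrob q (unramExt q F n) ψ → ψ = φF)
    (φL : unramExt q L n' ≃ₐ[L] unramExt q L n') (hφL : IsFrob q (unramExt q L n') φL) :
    galRes (unramExt_pairLE L hQ) φL = φF ^ f := by
  refine algEquiv_eq_of_congr _ φF hφF huniq _ _ ?_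
  intro x hx
  have hx' : nrm q (pairIncl (unramExt_pairLE L hQ) x) ≤ 1 := by
    rw [nrm_coe] at hx ⊢
    rw [pairIncl_coe]
    exact hx
  have h0 := hφL (pairIncl (unramExt_pairLE L hQ) x) hx'
  rw [nrm_coe, AddSubgroupClass.coe_sub, SubmonoidClass.coe_pow, pairIncl_coe] at h0
  have h1 : ‖((φL (pairIncl (unramExt_pairLE L hQ) x) : unramExt q L n') : PadicAlgCl q) -
      (x : PadicAlgCl q) ^ resCard q L‖ < 1 := h0
  have h2 := isFrob_pow _ φF hφF f x hx
  rw [hf] at h1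
  rw [norm_sub_rev] at h2
  rw [galRes_apply]
  exact norm_sub_lt_one_trans _ _ _ h1 h2

omit [Algebra ℚ_[q] F] [IsScalarTower ℚ_[q] F (PadicAlgCl q)] in
/-- A generator of the Galois group has order the degree. -/
theorem orderOf_eq_finrank_of_gen {N : IntermediateField F (PadicAlgCl q)}
    [FiniteDimensional F N] [IsGalois F N] (φ : N ≃ₐ[F] N)
    (hgen : ∀ τ : N ≃ₐ[F] N, τ ∈ Subgroup.zpowers φ) : orderOf φ = Module.finrank F N := by
  rw [orderOf_eq_card_of_forall_mem_zpowers hgen, IsGalois.card_aut_eq_finrank]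

end Pair

end Fermat.Agent.S55.H76
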