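/-
Program C (S55), package C3, helper76: leaf V6 `LeafInvRes` (restriction multiplies the local
invariant by the degree) from the other leaves of the package.
-/
import Fermat.Agent.S55.H76.FrobRes
import Fermat.Agent.S55.H76.EF

set_option autoImplicit false

noncomputable section

namespace Fermat.Agent.S55.H76

open CategoryTheory groupCohomology Rep IntermediateField
open Fermat.Agent.S55.H66

variable {q : ℕ} [Fact q.Prime]

section Square

variable {F : Type} [Field F] [Algebra F (PadicAlgCl q)]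
variable {L E : IntermediateField F (PadicAlgCl q)}

/-- `E ⊔ N ⊆ E ⊔ N'` (the latter over `L`) when `N ⊆ N'`. -/
theorem pairLE_sup (h : L ≤ E) {N : IntermediateField F (PadicAlgCl q)}
    {N' : IntermediateField L (PadicAlgCl q)} (hp : PairLE N N') :
    PairLE (E ⊔ N) (extendScalars h ⊔ N') := by
  refine ⟨fun r => ⟨algebraMap F L r, rfl⟩, ?_⟩
  have hle : E ⊔ N ≤ (extendScalars h ⊔ N').restrictScalars F := by
    refine sup_le ?_ ?_
    · intro z hz
      have h1 : z ∈ extendScalars h := hz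
      exact (le_sup_left : extendScalars h ≤ extendScalars h ⊔ N') h1
    · intro z hz
      exact (le_sup_right : N' ≤ extendScalars h ⊔ N') (hp.2 z hz)
  exact fun z hz => hle hz

/-- The compatibility square: if `x ∈ H²(E/F)` and `y ∈ H²(N/F)` have the same inflation to
`E ⊔ N`, then `res x ∈ H²(E/L)` and the image of `y` in `H²(N'/L)` have the same inflation to
`E ⊔ N'`. -/
theorem infl_res_eq_infl_pairMap (h : L ≤ E) [Normal F E] [Normal L (extendScalars h)]
    {N : IntermediateField F (PadicAlgCl q)} [Normal F N]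
    {N' : IntermediateField L (PadicAlgCl q)} [Normal L N'] (hp : PairLE N N')
    (x : groupCohomology.H2 (Rep.ofAlgebraAutOnUnits F E))
    (y : groupCohomology.H2 (Rep.ofAlgebraAutOnUnits F N))
    (hxy : (inflH2 (le_sup_left : E ≤ E ⊔ N)).hom x = (inflH2 (le_sup_right : N ≤ E ⊔ N)).hom y) :
    (inflH2 (le_sup_left : extendScalars h ≤ extendScalars h ⊔ N')).hom ((resH2 h).hom x) =
      (inflH2 (le_sup_right : N' ≤ extendScalars h ⊔ N')).hom ((pairMap hp).hom y) := by
  rw [inflH2_eq_pairMap, inflH2_eq_pairMap] at hxy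
  rw [inflH2_eq_pairMap, inflH2_eq_pairMap, resH2_eq_pairMap, pairMap_comp_apply,
    pairMap_comp_apply]
  have h1 := pairMap_comp_apply (pairLE_of_le (le_sup_left : E ≤ E ⊔ N)) (pairLE_sup h hp) x
  have h2 := pairMap_comp_apply (pairLE_of_le (le_sup_right : N ≤ E ⊔ N)) (pairLE_sup h hp) y
  rw [hxy] at h1
  exact h1.symm.trans h2

end Square

section BaseUnit

variable {F : Type} [Field F] [Algebra F (PadicAlgCl q)]

/-- An invariant of `Nˣ` comes from `Fˣ`. -/
theorem exists_baseUnit_of_invariant (N : IntermediateField F (PadicAlgCl q))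
    [FiniteDimensional F N] [IsGalois F N] (a : Rep.ofAlgebraAutOnUnits F N)
    (ha : ∀ g : N ≃ₐ[F] N, (Rep.ofAlgebraAutOnUnits F N).ρ g a = a) :
    ∃ a₀ : Fˣ, a = baseUnit N a₀ := by
  set u : Nˣ := Additive.toMul (Rep.toAdditive a) with hu
  have hfix : ∀ g : N ≃ₐ[F] N, g (u : N) = (u : N) := by
    intro g
    have h1 := ha g
    have h2 := congrArg (fun w : Additive Nˣ => ((Additive.toMul w : Nˣ) : N)) h1
    exact h2
  obtain ⟨a₀, ha₀⟩ := (IsGalois.mem_range_algebraMap_iff_fixed (F := F) (E := N) (u : N)).mpr hfix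
  have hne : a₀ ≠ 0 := by
    rintro rfl
    rw [map_zero] at ha₀
    exact u.ne_zero ha₀.symm
  refine ⟨Units.mk0 a₀ hne, ?_⟩
  apply Additive.toMul.injective
  apply Units.ext
  exact ha₀.symm

/-- The coefficient map sends base units to base units. -/
theorem pairRep_baseUnit (L : IntermediateField F (PadicAlgCl q))
    {N : IntermediateField F (PadicAlgCl q)} [Normal F N]
    {M : IntermediateField L (PadicAlgCl q)} (hp : PairLE N M) (a₀ : Fˣ) :
    (pairRep hp).hom (baseUnit N a₀) =
      baseUnit M (Units.map (algebraMap F L : F →* L) a₀) := by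
  apply Additive.toMul.injective
  apply Units.ext
  apply Subtype.ext
  rfl

end BaseUnit

section Ord

variable {F : Type} [Field F] [Algebra ℚ_[q] F] [Algebra F (PadicAlgCl q)]
  [IsScalarTower ℚ_[q] F (PadicAlgCl q)] [FiniteDimensional ℚ_[q] F]

/-- `ord_L = e · ord_F` on `Fˣ` when `unifNrm F = unifNrm L ^ e`. -/
theorem ord_algebraMap (hOrd : LeafOrd q) (L : IntermediateField F (PadicAlgCl q))
    [FiniteDimensional F L] {e : ℕ} (he : unifNrm q F = unifNrm q L ^ e) (a : F) (ha : a ≠ 0) :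
    ord q (algebraMap F L a) = (e : ℤ) * ord q a := by
  obtain ⟨-, -, -, hF⟩ := hOrd F
  obtain ⟨hL0, hL1, -, hL⟩ := hOrd L
  have ha' : algebraMap F L a ≠ 0 := (map_ne_zero_iff _ (algebraMap F L).injective).mpr ha
  have h1 := hL (algebraMap F L a) ha'
  have h2 := hF a ha
  have h3 : nrm q (algebraMap F L a) = nrm q a := rfl
  rw [h3, h2, he, ← zpow_natCast, ← zpow_mul] at h1
  exact (zpow_right_injective₀ hL0 hL1.ne h1).symm

end Ord

/-- The tower formula for `extendScalars`. -/
theorem finrank_extendScalars_mul {F : Type} [Field F] [Algebra F (PadicAlgCl q)]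
    {L E : IntermediateField F (PadicAlgCl q)} (h : L ≤ E) :
    Module.finrank F L * Module.finrank L (extendScalars h) = Module.finrank F E := by
  rw [Module.finrank_mul_finrank F L (extendScalars h)]
  exact (upEquiv h).toLinearEquiv.finrank_eq

/-- **Leaf V6** from the other leaves. -/
theorem leafInvRes_of (hInv : LeafInv q) (hInvUnr : LeafInvUnr q) (hInvInfl : LeafInvInfl q)
    (hUnram : LeafUnram q) (hFrob : LeafFrob q) (hOrd : LeafOrd q) (hCycSurj : LeafCycSurj)
    (hCycRes : LeafCycRes) (hEF : EFStatement q) : LeafInvRes q := by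
  intro F _ _ _ _ _ L E _ _ _ h _ _ x
  classical
  obtain ⟨e, f, he, hf, hef, hunif, hres⟩ := hEF F L
  have hm0 : 0 < Module.finrank L (extendScalars h) := Module.finrank_pos
  have hn0 : 0 < Module.finrank F E := Module.finrank_pos
  have htower := finrank_extendScalars_mul h
  obtain ⟨n, hn⟩ : ∃ n : ℕ, n = Module.finrank F E := ⟨_, rfl⟩
  obtain ⟨n', hn'⟩ : ∃ n' : ℕ, n' = e * Module.finrank L (extendScalars h) := ⟨_, rfl⟩
  have hn0' : 0 < n := hn ▸ hn0
  have hn'0 : 0 < n' := hn' ▸ Nat.mul_pos he hm0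
  have hfn : f * n' = n := by
    rw [hn', hn, ← htower, ← hef]
    ring
  have hQ : resCard q L ^ n' = resCard q F ^ n := by rw [hres, ← pow_mul, hfn]
  -- the unramified extensions `F_n/F` and `L_{n'}/L`
  obtain ⟨hfinF, hrankF, hgalF, -, hunrF⟩ := hUnram F n hn0'
  obtain ⟨hfinL, hrankL, hgalL, -, hunrL⟩ := hUnram L n' hn'0
  have := hfinF
  have := hgalF
  have := hfinL
  have := hgalL
  have : IsGalois F ↥(E ⊔ unramExt q F n) := ⟨⟩
  obtain ⟨φF, hφF, huniqF, hgenF⟩ := hFrob F (unramExt q F n) hunrF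
  obtain ⟨φL, hφL, -, hgenL⟩ := hFrob L (unramExt q L n') hunrL
  -- the unramified class `y` with the same invariant as `x`
  have hz : n • inv q E x = 0 := by
    rw [hn]
    exact ((hInv F E).2.2 _).mp ⟨x, rfl⟩
  obtain ⟨y, hy⟩ := ((hInv F (unramExt q F n)).2.2 (inv q E x)).mpr (by rw [hrankF]; exact hz)
  have hxy : (inflH2 (le_sup_left : E ≤ E ⊔ unramExt q F n)).hom x =
      (inflH2 (le_sup_right : unramExt q F n ≤ E ⊔ unramExt q F n)).hom y := by
    apply (hInv F (E ⊔ unramExt q F n)).2.1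
    rw [hInvInfl F E (E ⊔ unramExt q F n) le_sup_left x,
      hInvInfl F (unramExt q F n) (E ⊔ unramExt q F n) le_sup_right y, hy]
  obtain ⟨a, ha, hay⟩ := hCycSurj ℤ (unramExt q F n ≃ₐ[F] unramExt q F n)
    (Rep.ofAlgebraAutOnUnits F (unramExt q F n)) φF hgenF y
  obtain ⟨a₀, rfl⟩ := exists_baseUnit_of_invariant (unramExt q F n) a ha
  have hinvy : inv q (unramExt q F n) y =
      (((ord q (a₀ : F) : ℚ) / (n : ℚ) : ℚ) : QZ) := by
    rw [← hay, hInvUnr F (unramExt q F n) hunrF φF hφF a₀, hrankF]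
  -- restriction of the unramified class (CY6)
  have hordF : orderOf φF = n := by rw [orderOf_eq_finrank_of_gen φF hgenF, hrankF]
  have hordL : orderOf φL = n' := by rw [orderOf_eq_finrank_of_gen φL hgenL, hrankL]
  have hres6 := hCycRes ℤ (unramExt q F n ≃ₐ[F] unramExt q F n)
    (unramExt q L n' ≃ₐ[L] unramExt q L n') (Rep.ofAlgebraAutOnUnits F (unramExt q F n))
    (Rep.ofAlgebraAutOnUnits L (unramExt q L n')) (galRes (unramExt_pairLE L hQ))
    (pairRep (unramExt_pairLE L hQ)) φF φL f hgenF hgenL (galRes_unram_injective L hQ)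
    (galRes_frob L hQ hres φF hφF huniqF φL hφL) (by rw [hordF, hordL, hfn])
    (baseUnit (unramExt q F n) a₀) ha
  rw [pairRep_baseUnit L (unramExt_pairLE L hQ) a₀, hay] at hres6
  -- the characterisation of `inv` for `E/L`
  have key := (hInv L (extendScalars h)).1 n' (inv q (unramExt q L n')) hn'0
    (hInvUnr L (unramExt q L n') hunrL) ((resH2 h).hom x)
    ((pairMap (unramExt_pairLE L hQ)).hom y)
    (infl_res_eq_infl_pairMap h (unramExt_pairLE L hQ) x y hxy)
  have hpm : (pairMap (unramExt_pairLE L hQ)).hom y =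
      cycClass (Rep.ofAlgebraAutOnUnits L (unramExt q L n')) φL
        (baseUnit (unramExt q L n') (Units.map (algebraMap F L : F →* L) a₀)) := hres6
  rw [key, hpm, hInvUnr L (unramExt q L n') hunrL φL hφL, hrankL, ← hy, hinvy]
  -- the numerical identity `e · ord(a₀) / n' = [L : F] · ord(a₀) / n`
  have hordL' : ord q (((Units.map (algebraMap F L : F →* L) a₀ : Lˣ) : L)) =
      (e : ℤ) * ord q (a₀ : F) := ord_algebraMap hOrd L hunif (a₀ : F) a₀.ne_zero
  rw [hordL', ← AddCircle.coe_nsmul]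
  congr 1
  rw [nsmul_eq_mul, ← hef, ← hfn]
  have hf' : (f : ℚ) ≠ 0 := by exact_mod_cast hf.ne'
  have hn'' : (n' : ℚ) ≠ 0 := by exact_mod_cast hn'0.ne'
  push_cast
  field_simp

end Fermat.Agent.S55.H76
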