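/-
Program C (S55), package C3, helper76: leaf V6 `LeafInvRes` with the landed leaves
(`leafOrd`, CY2 `leafCycSurj`, CY6 `leafCycRes`, and the numerical `e f = n` statement)
discharged.  Remaining hypotheses: `LeafInv`, `LeafInvUnr`, `LeafInvInfl`, `LeafUnram`,
`LeafFrob`.
-/
import Fermat.Agent.S55.H76.InvResCore
import Fermat.Agent.S55.H10.CycSurj
import Fermat.Agent.S55.H80.CycRes

set_option autoImplicit false

namespace Fermat.Agent.S55.H76

open Fermat.Agent.S55.H66

variable {q : ℕ} [Fact q.Prime]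

/-- **Leaf V6** (`LeafInvRes`): `inv_{E/L} (res x) = [L : F] • inv_{E/F} x`. -/
theorem leafInvRes (hInv : LeafInv q) (hInvUnr : LeafInvUnr q) (hInvInfl : LeafInvInfl q)
    (hUnram : LeafUnram q) (hFrob : LeafFrob q) : LeafInvRes q :=
  leafInvRes_of hInv hInvUnr hInvInfl hUnram hFrob (leafOrd q) H10.leafCycSurj H80.leafCycRes
    (efStatement q)

end Fermat.Agent.S55.H76
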