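/-
Program C (S55), package C3, helper76: leaf V6 `LeafInvRes` UNCONDITIONALLY, and with it the
whole C3 package (`H66.C3Package q`) without hypotheses.
-/
import Fermat.Agent.S55.H76.InvRes
import Fermat.Agent.S55.H66.C3Tate

set_option autoImplicit false

namespace Fermat.Agent.S55.H76

open Fermat.Agent.S55.H66

variable (q : ℕ) [Fact q.Prime]

/-- **Leaf V6** (`LeafInvRes`), unconditional:
`inv_{E/L} (res x) = [L : F] • inv_{E/F} x`. -/
theorem leafInvRes_holds : LeafInvRes q :=
  leafInvRes (c3_inv q) (c3_invUnr q) (c3_invInfl q) (c3_unram q) (c3_frob q)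

/-- The whole local package C3, unconditional. -/
theorem c3Package_holds : C3Package q :=
  c3Package_of'' q (leafInvRes_holds q)

end Fermat.Agent.S55.H76
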