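/-
Program C (S55), package C8, helper76: leaf (LINV-CONJ) `H29.LinvConjStatement`.

For an abelian layer `K / k` with intermediate field `E`, `s ∈ Gal(E/k)` and `b ∈ Eˣ`, the local
invariants of the cyclic class of `s b` in the layer `K / E` are those of the cyclic class of `b`
at conjugate places.

Proof.  `W := w.ext K`, `s̃` a lift of `s` to `K`, `T := W ∘ s̃`.  The embeddings `W` and `T` have
the same local fields, and (the group being abelian) the same decomposition maps; by CY6 on both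
sides and transport of structure (`H20.inv_transH2` with `g = 1`) the invariant at `W` of the
class of `s b` is the invariant at `T` of the class of `b`; finally `T` restricted to `E` is
`w.emb ∘ s`, so (LINV-INDEP) identifies the invariant at `T` with the invariant at the chosen
embedding of the place `w'` of `w.emb ∘ s`.
-/
import Fermat.Agent.S55.H29.C8Ex
import Fermat.Agent.S55.H20.InvTransport
import Fermat.Agent.S55.H20.Decomp
import Fermat.Agent.S55.H9.ResInflUnram
import Fermat.Agent.S55.H80.CycRes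

set_option autoImplicit false

open CategoryTheory groupCohomology Rep

noncomputable section

namespace Fermat.Agent.S55.H76

open Fermat.Agent.S55 Fermat.Agent.S55.H66 Fermat.Agent.S55.H88

variable (q : ℕ) [Fact q.Prime]

section Local

variable (k : Type) {K : Type} [Field k] [Field K] [Algebra k K] (τ' : K →+* PadicAlgCl q)

/-- `K_w = k_v(τ' K)`. -/
theorem locExt_eq_adjoin :
    locExt q k τ' = IntermediateField.adjoin (locBase q k τ') (Set.range τ') := by
  apply IntermediateField.restrictScalars_injective ℚ_[q]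
  rw [locExt, IntermediateField.extendScalars_restrictScalars,
    IntermediateField.restrictScalars_adjoin_eq_sup]
  exact (sup_eq_right.mpr (locBase_le q k τ')).symm

/-- The image of `a : kˣ` in the completion of `k`. -/
def locUnit (a : kˣ) : (locBase q k τ')ˣ :=
  Units.map ((locEmb q (τ'.comp (algebraMap k K)) : k →+* locBase q k τ') : k →* locBase q k τ') a

theorem coe_locUnit (a : kˣ) :
    (((locUnit q k τ' a : (locBase q k τ')ˣ) : locBase q k τ') : PadicAlgCl q) =
      τ' (algebraMap k K (a : k)) := rfl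

omit [Fact q.Prime] in
/-- Base units are invariant. -/
theorem unitOfBase_invariant (a : kˣ) (g : K ≃ₐ[k] K) :
    (Rep.ofAlgebraAutOnUnits k K).ρ g (H29.unitOfBase k K a) = H29.unitOfBase k K a :=
  congrArg Additive.ofMul (Units.ext (g.commutes (a : k)))

variable [Normal k K]

/-- The decomposition map is injective. -/
theorem locGalToGlobal_injective : Function.Injective (locGalToGlobal q k τ') := by
  intro α β h
  have key : (α : locExt q k τ' →ₐ[locBase q k τ'] locExt q k τ') = β := by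
    refine IntermediateField.algHom_ext_of_eq_adjoin (locBase q k τ') (locExt_eq_adjoin q k τ') ?_
    rintro _ ⟨x, rfl⟩
    have h1 := locGalToGlobal_spec q k τ' α x
    have h2 := locGalToGlobal_spec q k τ' β x
    rw [h] at h1
    exact h1.trans h2.symm
  exact AlgEquiv.ext (fun x => congrArg
    (fun f : locExt q k τ' →ₐ[locBase q k τ'] locExt q k τ' => f x) key)

/-- The localisation of a base unit is a base unit. -/
theorem globalToLocUnits_unitOfBase (a : kˣ) :
    (globalToLocUnits q k τ').hom (H29.unitOfBase k K a) =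
      baseUnit (locExt q k τ') (locUnit q k τ' a) := by
  apply H24.toUnit_injective
  apply Units.ext
  apply Subtype.ext
  rfl

/-- CY6 at one embedding: the localisation of a cyclic class of a base unit. -/
theorem locH2At_cycClass [Finite (K ≃ₐ[k] K)]
    [Finite (locExt q k τ' ≃ₐ[locBase q k τ'] locExt q k τ')]
    (σ : K ≃ₐ[k] K) (hσ : ∀ g : K ≃ₐ[k] K, g ∈ Subgroup.zpowers σ)
    (τ : locExt q k τ' ≃ₐ[locBase q k τ'] locExt q k τ')
    (hτ : ∀ g : locExt q k τ' ≃ₐ[locBase q k τ'] locExt q k τ', g ∈ Subgroup.zpowers τ) (d : ℕ)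
    (hd : locGalToGlobal q k τ' τ = σ ^ d) (hord : d * orderOf τ = orderOf σ) (a : kˣ) :
    locH2At q k τ' (cycClass (Rep.ofAlgebraAutOnUnits k K) σ (H29.unitOfBase k K a)) =
      cycClass (Rep.ofAlgebraAutOnUnits (locBase q k τ') (locExt q k τ')) τ
        (baseUnit (locExt q k τ') (locUnit q k τ' a)) := by
  have h := H80.leafCycRes ℤ (K ≃ₐ[k] K) (locExt q k τ' ≃ₐ[locBase q k τ'] locExt q k τ')
    (Rep.ofAlgebraAutOnUnits k K) (Rep.ofAlgebraAutOnUnits (locBase q k τ') (locExt q k τ'))
    (locGalToGlobal q k τ') (globalToLocUnits q k τ') σ τ d hσ hτ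
    (locGalToGlobal_injective q k τ') hd hord (H29.unitOfBase k K a)
    (unitOfBase_invariant k a)
  rw [globalToLocUnits_unitOfBase] at h
  exact h

end Local

section Instances

variable (k : Type) {K : Type} [Field k] [Field K] [Algebra k K] [FiniteDimensional k K]
  (τ' : K →+* PadicAlgCl q)

theorem finiteDimensional_locExt : FiniteDimensional (locBase q k τ') (locExt q k τ') :=
  H20.finiteDimensional_extendScalars q k τ'

theorem isGalois_locExt [Normal k K] : IsGalois (locBase q k τ') (locExt q k τ') := by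
  have := finiteDimensional_locExt q k τ'
  exact ⟨⟩

end Instances

section Conj

variable (k : Type) {K : Type} [Field k] [Field K] [Algebra k K]
  (τ₁ : K →+* PadicAlgCl q) (c : K ≃+* K) (c₀ : k ≃+* k)

omit [Algebra k K] in
theorem locField_comp_ringEquiv : locField q (τ₁.comp (c : K →+* K)) = locField q τ₁ := by
  unfold locField
  congr 1
  ext z
  constructor
  · rintro ⟨x, rfl⟩
    exact ⟨c x, rfl⟩
  · rintro ⟨x, rfl⟩
    exact ⟨c.symm x, congrArg τ₁ (c.apply_symm_apply x)⟩

variable {c c₀} in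
theorem locBase_comp_ringEquiv (hc : ∀ x : k, c (algebraMap k K x) = algebraMap k K (c₀ x)) :
    locBase q k (τ₁.comp (c : K →+* K)) = locBase q k τ₁ := by
  have h : (τ₁.comp (c : K →+* K)).comp (algebraMap k K) =
      (τ₁.comp (algebraMap k K)).comp (c₀ : k →+* k) := RingHom.ext fun x => congrArg τ₁ (hc x)
  show locField q _ = locField q _
  rw [h]
  exact locField_comp_ringEquiv q (τ₁.comp (algebraMap k K)) c₀

end Conj

section Conj2

variable (k : Type) {K : Type} [Field k] [Field K] [Algebra k K] [FiniteDimensional k K]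
  [Normal k K] (τ₁ : K →+* PadicAlgCl q) {c : K ≃+* K} {c₀ : k ≃+* k}
  (hc : ∀ x : k, c (algebraMap k K x) = algebraMap k K (c₀ x))

/-- The identification of the completions of `k` at `τ₁` and at `τ₁ ∘ c`. -/
def conjBaseEquiv : locBase q k τ₁ ≃+* locBase q k (τ₁.comp (c : K →+* K)) where
  toFun x := ⟨x.1, by rw [locBase_comp_ringEquiv q k τ₁ hc]; exact x.2⟩
  invFun y := ⟨y.1, by rw [← locBase_comp_ringEquiv q k τ₁ hc]; exact y.2⟩
  left_inv _ := rfl
  right_inv _ := rfl
  map_mul' _ _ := rfl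
  map_add' _ _ := rfl

omit [FiniteDimensional k K] [Normal k K] in
theorem conjBase_isCompat :
    H20.IsCompat (1 : PadicAlgCl q ≃ₐ[ℚ_[q]] PadicAlgCl q) (conjBaseEquiv q k τ₁ hc) :=
  fun _ => rfl

omit [FiniteDimensional k K] [Normal k K] in
theorem coe_conjBaseEquiv (x : locBase q k τ₁) :
    ((conjBaseEquiv q k τ₁ hc x : locBase q k (τ₁.comp (c : K →+* K))) : PadicAlgCl q) = x := by
  obtain ⟨z, hz⟩ := x
  rfl

omit [FiniteDimensional k K] [Normal k K] in
theorem conjBaseEquiv_locUnit (a a' : kˣ) (ha : (a' : k) = c₀ (a : k)) :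
    Units.map (((conjBaseEquiv q k τ₁ hc : locBase q k τ₁ ≃+* _) :
      locBase q k τ₁ →+* locBase q k (τ₁.comp (c : K →+* K))) :
        locBase q k τ₁ →* locBase q k (τ₁.comp (c : K →+* K))) (locUnit q k τ₁ a') =
      locUnit q k (τ₁.comp (c : K →+* K)) a := by
  apply Units.ext
  apply Subtype.ext
  rw [Units.coe_map]
  have h1 : (((conjBaseEquiv q k τ₁ hc
      ((locUnit q k τ₁ a' : (locBase q k τ₁)ˣ) : locBase q k τ₁) :
        locBase q k (τ₁.comp (c : K →+* K))) : PadicAlgCl q)) =
      τ₁ (algebraMap k K (a' : k)) := by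
    rw [coe_conjBaseEquiv, coe_locUnit]
  have h2 : (((locUnit q k (τ₁.comp (c : K →+* K)) a :
      (locBase q k (τ₁.comp (c : K →+* K)))ˣ) : locBase q k (τ₁.comp (c : K →+* K))) :
        PadicAlgCl q) = τ₁ (c (algebraMap k K (a : k))) := by
    rw [coe_locUnit]
    rfl
  rw [h2, hc, ← ha]
  exact h1

omit [FiniteDimensional k K] [Normal k K] in
theorem conjExt_isImage (c : K ≃+* K) :
    H20.IsImage (1 : PadicAlgCl q ≃ₐ[ℚ_[q]] PadicAlgCl q) (locExt q k τ₁)
      (locExt q k (τ₁.comp (c : K →+* K))) := by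
  intro x
  show x ∈ locField q τ₁ ↔ x ∈ locField q (τ₁.comp (c : K →+* K))
  rw [locField_comp_ringEquiv]

omit [FiniteDimensional k K] in
/-- The decomposition maps at `τ₁` and at `τ₁ ∘ c` agree when `c` commutes with `Gal(K/k)`. -/
theorem locGalToGlobal_galMap (hcomm : ∀ (ρ : K ≃ₐ[k] K) (x : K), c (ρ x) = ρ (c x))
    (α : locExt q k (τ₁.comp (c : K →+* K)) ≃ₐ[locBase q k (τ₁.comp (c : K →+* K))]
      locExt q k (τ₁.comp (c : K →+* K))) :
    locGalToGlobal q k τ₁ (H20.galMap (conjBase_isCompat q k τ₁ hc) (conjExt_isImage q k τ₁ c) α)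
      = locGalToGlobal q k (τ₁.comp (c : K →+* K)) α := by
  refine AlgEquiv.ext fun y => ?_
  apply c.injective
  apply τ₁.injective
  have h2 := congrArg Subtype.val
    (locGalToGlobal_spec q k (τ₁.comp (c : K →+* K)) α y)
  have h1 := congrArg Subtype.val (locGalToGlobal_spec q k τ₁
    (H20.galMap (conjBase_isCompat q k τ₁ hc) (conjExt_isImage q k τ₁ c) α) (c y))
  have h3 := H20.coe_galMap (conjBase_isCompat q k τ₁ hc) (conjExt_isImage q k τ₁ c) α
    (locExtEmb q k τ₁ (c y))
  have h4 : H20.fieldEquiv (conjExt_isImage q k τ₁ c) (locExtEmb q k τ₁ (c y)) =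
      locExtEmb q k (τ₁.comp (c : K →+* K)) y := Subtype.ext rfl
  rw [h4] at h3
  rw [coe_locExtEmb] at h1 h2
  rw [hcomm, ← h1]
  exact h3.trans h2

include hc in
/-- **Conjugation lemma**: the invariant at `τ₁` of the cyclic class of `c₀ a` is the invariant
at `τ₁ ∘ c` of the cyclic class of `a`. -/
theorem linvAt_conj [NumberField k] (hcomm : ∀ (ρ : K ≃ₐ[k] K) (x : K), c (ρ x) = ρ (c x))
    (σ : K ≃ₐ[k] K) (hσ : ∀ g : K ≃ₐ[k] K, g ∈ Subgroup.zpowers σ) (a a' : kˣ)
    (ha : (a' : k) = c₀ (a : k)) :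
    linvAt q k τ₁ (cycClass (Rep.ofAlgebraAutOnUnits k K) σ (H29.unitOfBase k K a')) =
      linvAt q k (τ₁.comp (c : K →+* K))
        (cycClass (Rep.ofAlgebraAutOnUnits k K) σ (H29.unitOfBase k K a)) := by
  have he := conjBase_isCompat q k τ₁ hc
  have hL := conjExt_isImage q k τ₁ c
  have := finiteDimensional_locExt q k τ₁
  have := isGalois_locExt q k τ₁
  have := finiteDimensional_locExt q k (τ₁.comp (c : K →+* K))
  have := isGalois_locExt q k (τ₁.comp (c : K →+* K))
  obtain ⟨t₂, d, ht₂, hd, hord⟩ := H9.exists_gen_of_injective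
    (locGalToGlobal q k (τ₁.comp (c : K →+* K)))
    (locGalToGlobal_injective q k (τ₁.comp (c : K →+* K))) σ hσ
  have ht₁ : ∀ g : locExt q k τ₁ ≃ₐ[locBase q k τ₁] locExt q k τ₁,
      g ∈ Subgroup.zpowers (H20.galMap he hL t₂) := by
    intro g
    obtain ⟨β, rfl⟩ := H20.galMap_surjective he hL g
    obtain ⟨j, rfl⟩ := Subgroup.mem_zpowers_iff.1 (ht₂ β)
    exact Subgroup.mem_zpowers_iff.2 ⟨j, (map_zpow (H20.galMap he hL) t₂ j).symm⟩
  have hd₁ : locGalToGlobal q k τ₁ (H20.galMap he hL t₂) = σ ^ d := by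
    rw [locGalToGlobal_galMap q k τ₁ hc hcomm, hd]
  have hord₁ : d * orderOf (H20.galMap he hL t₂) = orderOf σ := by
    rw [orderOf_injective _ (H20.galMap_injective he hL), hord]
  have e1 := locH2At_cycClass q k τ₁ σ hσ _ ht₁ d hd₁ hord₁ a'
  have e2 := locH2At_cycClass q k (τ₁.comp (c : K →+* K)) σ hσ t₂ ht₂ d hd hord a
  have e3 := H20.inv_transH2 he hL (cycClass (Rep.ofAlgebraAutOnUnits (locBase q k τ₁)
    (locExt q k τ₁)) (H20.galMap he hL t₂) (baseUnit (locExt q k τ₁) (locUnit q k τ₁ a')))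
  have e4 := H20.transH2_cycClass he hL t₂ ht₂ (locUnit q k τ₁ a')
  have e5 := congrArg (fun u => cycClass (Rep.ofAlgebraAutOnUnits
    (locBase q k (τ₁.comp (c : K →+* K))) (locExt q k (τ₁.comp (c : K →+* K)))) t₂
      (baseUnit (locExt q k (τ₁.comp (c : K →+* K))) u)) (conjBaseEquiv_locUnit q k τ₁ hc a a' ha)
  have e6 := e4.trans e5
  show inv q (locExt q k τ₁) (locH2At q k τ₁ _) =
    inv q (locExt q k (τ₁.comp (c : K →+* K))) (locH2At q k (τ₁.comp (c : K →+* K)) _)
  rw [e1, e2, ← e3, e6]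

end Conj2

section Degree

variable (k : Type) {E : Type} [Field k] [Field E] [Algebra k E]

omit [Algebra k E] in
/-- `g (ℚ_q(τ E)) = ℚ_q(g τ E)`. -/
theorem mem_locField_comp_algEquiv (g : PadicAlgCl q ≃ₐ[ℚ_[q]] PadicAlgCl q)
    (τ : E →+* PadicAlgCl q) (z : PadicAlgCl q) :
    g z ∈ locField q ((g : PadicAlgCl q →+* PadicAlgCl q).comp τ) ↔ z ∈ locField q τ := by
  have h : locField q ((g : PadicAlgCl q →+* PadicAlgCl q).comp τ) =
      (locField q τ).map g.toAlgHom := by
    unfold locField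
    rw [IntermediateField.adjoin_map]
    congr 1
    ext y
    constructor
    · rintro ⟨x, rfl⟩
      exact ⟨τ x, ⟨x, rfl⟩, rfl⟩
    · rintro ⟨_, ⟨x, rfl⟩, rfl⟩
      exact ⟨x, rfl⟩
  rw [h]
  constructor
  · rintro ⟨y, hy, hgy⟩
    have : y = z := g.injective hgy
    rw [← this]
    exact hy
  · intro hz
    exact ⟨z, hz, rfl⟩

/-- The local degree does not change under `τ ↦ g ∘ τ ∘ s` (`g ∈ G_q`, `s ∈ Aut(E/k)`). -/
theorem finrank_locExt_conj (g : PadicAlgCl q ≃ₐ[ℚ_[q]] PadicAlgCl q) (τ : E →+* PadicAlgCl q)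
    (s : E ≃ₐ[k] E) :
    Module.finrank (locBase q k ((g : PadicAlgCl q →+* PadicAlgCl q).comp
        (τ.comp ((s : E ≃+* E) : E →+* E))))
      (locExt q k ((g : PadicAlgCl q →+* PadicAlgCl q).comp (τ.comp ((s : E ≃+* E) : E →+* E)))) =
    Module.finrank (locBase q k τ) (locExt q k τ) := by
  have hbase : ∀ z : PadicAlgCl q, z ∈ locBase q k τ ↔
      g z ∈ locBase q k ((g : PadicAlgCl q →+* PadicAlgCl q).comp
        (τ.comp ((s : E ≃+* E) : E →+* E))) := by
    intro z
    have h1 : ((g : PadicAlgCl q →+* PadicAlgCl q).comp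
        (τ.comp ((s : E ≃+* E) : E →+* E))).comp (algebraMap k E) =
        (g : PadicAlgCl q →+* PadicAlgCl q).comp (τ.comp (algebraMap k E)) :=
      RingHom.ext fun x => congrArg (fun y => g (τ y)) (s.commutes x)
    show z ∈ locField q _ ↔ g z ∈ locField q _
    rw [h1, mem_locField_comp_algEquiv]
  have hext : H20.IsImage g (locExt q k τ)
      (locExt q k ((g : PadicAlgCl q →+* PadicAlgCl q).comp
        (τ.comp ((s : E ≃+* E) : E →+* E)))) := by
    intro z
    show z ∈ locField q τ ↔ g z ∈ locField q _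
    rw [mem_locField_comp_algEquiv, locField_comp_ringEquiv]
  have hbase' : H20.IsImage (F₁ := ℚ_[q]) (F₂ := ℚ_[q]) g (locBase q k τ)
      (locBase q k ((g : PadicAlgCl q →+* PadicAlgCl q).comp
        (τ.comp ((s : E ≃+* E) : E →+* E)))) := hbase
  refine (Algebra.finrank_eq_of_equiv_equiv (H20.fieldEquiv hbase') (H20.fieldEquiv hext)
    ?_).symm
  refine RingHom.ext fun x => ?_
  apply Subtype.ext
  rfl

end Degree

attribute [local instance] H88.factOfPrimes

/-- **Leaf (LINV-CONJ)** of C8, from (LINV-INDEP). -/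
theorem linvConjStatement_of
    (hIndep : ∀ (E K : Type) [Field E] [NumberField E] [Field K] [NumberField K] [Algebra E K]
      [Normal E K] (q : ℕ) [Fact q.Prime] (τ' τ'' : K →+* PadicAlgCl q),
      (placeSetoid q E).r (τ'.comp (algebraMap E K)) (τ''.comp (algebraMap E K)) →
        linvAt q E τ' = linvAt q E τ'') :
    H29.LinvConjStatement := by
  intro k E K _ _ _ _ _ _ _ _ _ _ _ _ _ s σ' hσ' b w
  have : Normal E K := Normal.tower_top_of_normal k E K
  have hfin : FiniteDimensional E K := Module.Finite.of_restrictScalars_finite ℚ E K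
  -- the lift of `s` and its properties
  have hc : ∀ x : E, (s.liftNormal K).toRingEquiv (algebraMap E K x) =
      algebraMap E K (s.toRingEquiv x) := fun x => AlgEquiv.liftNormal_commutes s K x
  have hcomm : ∀ (ρ : K ≃ₐ[E] K) (x : K),
      (s.liftNormal K).toRingEquiv (ρ x) = ρ ((s.liftNormal K).toRingEquiv x) := by
    intro ρ x
    have h := mul_comm' (s.liftNormal K) (ρ.restrictScalars k)
    exact congrArg (fun f : K ≃ₐ[k] K => f x) h
  -- the conjugate place
  let w' : FinPlace E :=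
    ⟨w.1, placeOf (w.1 : ℕ) (w.emb.comp ((s : E ≃+* E) : E →+* E))⟩
  have hout : ∃ g : PadicAlgCl (w.1 : ℕ) ≃ₐ[ℚ_[(w.1 : ℕ)]] PadicAlgCl (w.1 : ℕ),
      w'.emb = (g : PadicAlgCl (w.1 : ℕ) →+* PadicAlgCl (w.1 : ℕ)).comp
        (w.emb.comp ((s : E ≃+* E) : E →+* E)) :=
    (placeSetoid (w.1 : ℕ) E).symm
      (Quotient.mk_out (s := placeSetoid (w.1 : ℕ) E) (w.emb.comp ((s : E ≃+* E) : E →+* E)))
  refine ⟨w', ?_, ?_, ?_⟩
  · -- the place below
    have h1 : PlaceAbove.restrict (w.1 : ℕ) k E w.2 =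
        placeOf (w.1 : ℕ) (w.emb.comp (algebraMap k E)) := by
      conv_lhs => rw [← Quotient.out_eq w.2]
      rfl
    have h2 : PlaceAbove.restrict (w.1 : ℕ) k E
        (placeOf (w.1 : ℕ) (w.emb.comp ((s : E ≃+* E) : E →+* E))) =
        placeOf (w.1 : ℕ) ((w.emb.comp ((s : E ≃+* E) : E →+* E)).comp (algebraMap k E)) := rfl
    have h3 : (w.emb.comp ((s : E ≃+* E) : E →+* E)).comp (algebraMap k E) =
        w.emb.comp (algebraMap k E) := RingHom.ext fun x => congrArg w.emb (s.commutes x)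
    show (⟨w.1, PlaceAbove.restrict (w.1 : ℕ) k E
        (placeOf (w.1 : ℕ) (w.emb.comp ((s : E ≃+* E) : E →+* E)))⟩ : FinPlace k) =
      ⟨w.1, PlaceAbove.restrict (w.1 : ℕ) k E w.2⟩
    rw [h1, h2, h3]
  · -- the local degree
    obtain ⟨g, hg⟩ := hout
    show Module.finrank (locBase (w.1 : ℕ) k w'.emb) (locExt (w.1 : ℕ) k w'.emb) =
      Module.finrank (locBase (w.1 : ℕ) k w.emb) (locExt (w.1 : ℕ) k w.emb)
    rw [hg]
    exact finrank_locExt_conj (w.1 : ℕ) k g w.emb s
  · -- the invariants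
    have hA := linvAt_conj (w.1 : ℕ) E (w.ext K) hc hcomm σ' hσ' b
      (Units.map ((s : E ≃ₐ[k] E) : E →* E) b) rfl
    have hrel : (placeSetoid (w.1 : ℕ) E).r
        (((w.ext K).comp (((s.liftNormal K).toRingEquiv : K ≃+* K) : K →+* K)).comp
          (algebraMap E K)) ((w'.ext K).comp (algebraMap E K)) := by
      have h1 : ((w.ext K).comp (((s.liftNormal K).toRingEquiv : K ≃+* K) : K →+* K)).comp
          (algebraMap E K) = w.emb.comp ((s : E ≃+* E) : E →+* E) := by
        refine RingHom.ext fun x => ?_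
        show w.ext K ((s.liftNormal K) (algebraMap E K x)) = w.emb (s x)
        rw [AlgEquiv.liftNormal_commutes]
        exact RingHom.congr_fun (FinPlace.ext_comp K w) (s x)
      rw [h1, FinPlace.ext_comp]
      exact hout
    have hB := hIndep E K (w.1 : ℕ) _ _ hrel
    show linvAt (w.1 : ℕ) E (w.ext K) _ = linvAt (w.1 : ℕ) E (w'.ext K) _
    rw [hA, hB]

end Fermat.Agent.S55.H76
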