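/-
Program C (S55), package C8, helper76: leaf (LINV-CONJ) `H29.LinvConjStatement`, unconditional
(with helper20's (LINV-INDEP)).
-/
import Fermat.Agent.S55.H76.LinvConj
import Fermat.Agent.S55.H20.LinvIndep

set_option autoImplicit false

namespace Fermat.Agent.S55.H76

open Fermat.Agent.S55

/-- **Leaf (LINV-CONJ)** of C8. -/
theorem linvConjStatement : H29.LinvConjStatement :=
  linvConjStatement_of (fun E K _ _ _ _ _ _ q _ τ' τ'' h =>
    have : FiniteDimensional E K := Module.Finite.of_restrictScalars_finite ℚ E K
    H20.linvIndep E K q τ' τ'' h)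

end Fermat.Agent.S55.H76
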