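/-
Program C (S55), package C8, task 589 (helper76): the leaf (CYCLO-DEG) of helper29's
`H29/C8Final.lean`, VERBATIM, from helper15's landed `H15.exists_qsLayer_cyclic_locDegAt`
(Z1 + Z2 over helper74's index `H74.QSLayer`); also (CYCLO-EXACT) from
`H15.exists_qsLayer_cyclic`, and the export (X4) from (B3) alone.
-/
import Fermat.Agent.S55.H29.C8Final
import Fermat.Agent.S55.H15.CycloQSLayer

set_option autoImplicit false

noncomputable section

namespace Fermat.Agent.S55.H76

open Fermat.Agent.S55

/-- `p ∈ S` in the form of the C9b statements from the form of `C8Final`. -/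
theorem pPrime_mem_of_exists {p : ℕ} [Fact p.Prime] {S : Finset Nat.Primes}
    (h : ∃ q ∈ S, (q : ℕ) = p) : ExtCitation.pPrime p ∈ S := by
  obtain ⟨q, hq, hqp⟩ := h
  have e : ExtCitation.pPrime p = q := Subtype.ext hqp.symm
  rw [e]
  exact hq

/-- **Leaf (CYCLO-DEG)**, verbatim. -/
theorem cycloDegStatement (p : ℕ) : H29.CycloDegStatement p := by
  intro hp hp2 S F hpS hF W m
  haveI : Fact p.Prime := ⟨hp⟩
  exact H15.exists_qsLayer_cyclic_locDegAt p hp2 (pPrime_mem_of_exists hpS) F hF W m

/-- **Leaf (CYCLO-EXACT)**, verbatim. -/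
theorem cycloExactStatement (p : ℕ) : H29.CycloExactStatement p := by
  intro hp hp2 S F hpS hF a
  haveI : Fact p.Prime := ⟨hp⟩
  exact H15.exists_qsLayer_cyclic p hp2 (pPrime_mem_of_exists hpS) F hF a

/-- **Export (X4)** from (B3) alone. -/
theorem x4_of_cyclicEx {p : ℕ} (hEx : H29.CyclicExStatement p) : H29.X4Statement p :=
  H29.x4_of hEx (cycloDegStatement p)

/-- **Export (X5)** from (B4) alone. -/
theorem x5_of_h3Kill {p : ℕ} (hK : H29.H3KillStatement p) : H29.X5Statement p :=
  H29.x5_of hK (cycloExactStatement p)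

end Fermat.Agent.S55.H76

end
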