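/-
Program C (S55), package C9b, leaf (HL-c) INFL-COC (helper76, task 549; asked by helper56):
the COCYCLE FORM of helper74's inflation `H74.inflK` on classes `H2π zb` of Mathlib's low-degree
`2`-cocycles of a finite layer `K/F` inside `ℚ_S`.

* `h2π_eq_cls` : for any `A : Rep ℤ G` and `zb : cocycles₂ A`, the class `H2π zb` is the class
  (`H49.cls`) of the inhomogeneous `2`-cocycle `γ ↦ zb (γ 0, γ 1)`;
* `inflCoc` : for a layer `L : H74.QSLayer S F` and `zb : cocycles₂ (Kˣ)` there is a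
  level-constant `2`-cocycle `z` of `Gal(ℚ̄/F)` with values in `ℚ_S^×` such that
  `inflK [zb] = cls z`, `z` has level `N` for every `N ⊇ K` unramified outside `S`, and
  `z (g, h) = zb (g|K, h|K)` (as elements of `ℚ̄`), `g|K = H74.galRes F L.K g`.
-/
import Mathlib
import Fermat.Agent.S55.H74.GalLayerH
import Fermat.Agent.S55.H49.ConeApi

set_option autoImplicit false

open CategoryTheory groupCohomology

noncomputable section

namespace Fermat.Agent.S55.H76

open Fermat.Agent.S55.H49 Fermat.Agent.S55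

local notation "Qb" => AlgebraicClosure ℚ

section General

variable {G : Type} [Group G] (A : Rep.{0, 0, 0} ℤ G)

/-- The inhomogeneous `2`-cocycle attached to a low-degree `2`-cocycle. -/
def cocOf (zb : cocycles₂ A) : cyc (inhomogeneousCochains A) 2 :=
  ⟨((inhomogeneousCochains A).iCycles 2).hom ((isoCocycles₂ A).inv.hom zb),
    iCycles_mem_cyc (inhomogeneousCochains A) 2 _⟩

theorem cocOf_coe (zb : cocycles₂ A) :
    ((cocOf A zb : cyc (inhomogeneousCochains A) 2) : (inhomogeneousCochains A).X 2) =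
      ((inhomogeneousCochains A).iCycles 2).hom ((isoCocycles₂ A).inv.hom zb) := rfl

/-- Values of `cocOf`. -/
theorem cocOf_apply (zb : cocycles₂ A) (γ : Fin 2 → G) :
    ((cocOf A zb : cyc (inhomogeneousCochains A) 2) : (Fin 2 → G) → A) γ =
      (zb : G × G → A) (γ 0, γ 1) := by
  have e' : ((inhomogeneousCochains A).iCycles 2).hom ((isoCocycles₂ A).inv.hom zb) =
      (cochainsIso₂ A).inv.hom (zb : G × G → A) :=
    isoCocycles₂_inv_comp_iCocycles_apply A zb
  rw [cocOf_coe, e']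
  rfl

/-- The class `H2π zb` is the class of the inhomogeneous cocycle `cocOf zb`. -/
theorem h2π_eq_cls (zb : cocycles₂ A) :
    (H2π A).hom zb = (cls (inhomogeneousCochains A) 2).hom (cocOf A zb) := by
  have h1 : (cycToCycles (inhomogeneousCochains A) 2).hom (cocOf A zb) =
      (isoCocycles₂ A).inv.hom zb := by
    apply iCycles_injective (inhomogeneousCochains A) 2
    rw [iCycles_cycToCycles]
    rfl
  show (H2π A).hom zb = ((inhomogeneousCochains A).homologyπ 2).hom
    ((cycToCycles (inhomogeneousCochains A) 2).hom (cocOf A zb))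
  rw [h1]
  rfl

end General

section Layer

variable (S : Finset Nat.Primes) (F : IntermediateField ℚ Qb)

/-- The subgroup of a level `N ⊇ K` is contained in the kernel of the restriction to `K`. -/
theorem sub_le_ker_galRes (K : IntermediateField ↥F Qb) [Normal ↥F ↥K]
    (N : IntermediateField ℚ Qb) (hKN : K.restrictScalars ℚ ≤ N) :
    (H42.fieldDatum S F).sub N ≤ (H74.galRes F K).ker := by
  intro γ hγ
  rw [H74.mem_ker_galRes_iff]
  intro x hx
  have hγ' : ((γ : ↥F.fixingSubgroup) : Qb ≃ₐ[ℚ] Qb) ∈ N.fixingSubgroup := hγ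
  exact (IntermediateField.mem_fixingSubgroup_iff N _).mp hγ' x (hKN hx)

/-- **Leaf (HL-c) INFL-COC.**  The inflation to `G_S(F)` of the class of a low-degree
`2`-cocycle `zb` of a layer `K/F` is the class of the level-constant cocycle
`(g, h) ↦ zb (g|K, h|K)`, which has level `N` for every `N ⊇ K`. -/
theorem inflCoc (L : H74.QSLayer S F) (zb : cocycles₂ (Rep.ofAlgebraAutOnUnits ↥F ↥L.K)) :
    ∃ z : cyc (lcComplex (H42.fieldDatum S F) (H42.resF F (H42.QSx S))) 2,
      H74.inflK S F L.K L.unr 2 ((H2π (Rep.ofAlgebraAutOnUnits ↥F ↥L.K)).hom zb) =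
        (cls (lcComplex (H42.fieldDatum S F) (H42.resF F (H42.QSx S))) 2).hom z ∧
      (∀ N : IntermediateField ℚ Qb, N.IsUnramifiedOutside S → L.K.restrictScalars ℚ ≤ N →
        IsLCAt ((H42.fieldDatum S F).sub N) (H42.resF F (H42.QSx S)) (lcVal z)) ∧
      ∀ g h : ↥F.fixingSubgroup,
        ((H42.unitsRep.val (H := H42.qsUnits S) (hH := H42.qsStable S) ((lcVal z ![g, h] : H42.resF F (H42.QSx S))) : Qbˣ)
            : Qb) =
          (((Additive.toMul (Rep.toAdditive
            ((zb : (↥L.K ≃ₐ[↥F] ↥L.K) × (↥L.K ≃ₐ[↥F] ↥L.K) → Rep.ofAlgebraAutOnUnits ↥F ↥L.K)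
              (H74.galRes F L.K g, H74.galRes F L.K h))) : (↥L.K)ˣ) : ↥L.K) : Qb) := by
  refine ⟨cycMap (H74.inflKLc S F L.K L.unr) 2 (cocOf _ zb), ?_, ?_, ?_⟩
  · rw [h2π_eq_cls]
    exact homologyMap_cls (H74.inflKLc S F L.K L.unr) 2 (cocOf _ zb)
  · intro N _ hKN
    exact (H74.isLCAt_inflKCo S F L.K L.unr _).mono (sub_le_ker_galRes S F L.K N hKN)
  · intro g h
    have e : lcVal (cycMap (H74.inflKLc S F L.K L.unr) 2 (cocOf _ zb)) ![g, h] =
        (H74.unitsToQS S F L.K L.unr).hom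
          ((zb : (↥L.K ≃ₐ[↥F] ↥L.K) × (↥L.K ≃ₐ[↥F] ↥L.K) → Rep.ofAlgebraAutOnUnits ↥F ↥L.K)
            (H74.galRes F L.K g, H74.galRes F L.K h)) := by
      show (H74.unitsToQS S F L.K L.unr).hom
        (((cocOf _ zb : cyc (inhomogeneousCochains (Rep.ofAlgebraAutOnUnits ↥F ↥L.K)) 2) :
          (Fin 2 → (↥L.K ≃ₐ[↥F] ↥L.K)) → Rep.ofAlgebraAutOnUnits ↥F ↥L.K)
            fun i => H74.galRes F L.K (![g, h] i)) = _
      rw [cocOf_apply]
      rfl
    rw [e]
    rfl

end Layer

end Fermat.Agent.S55.H76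

end
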